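import Fermat.Agent.SchurWeylDuality.DoubleCommutant
import Mathlib.LinearAlgebra.Matrix.MvPolynomial
import Mathlib.LinearAlgebra.Matrix.GeneralLinearGroup.Defs
import Mathlib.Algebra.MvPolynomial.Funext
import Mathlib.LinearAlgebra.Dual.Lemmas
import Mathlib.Data.Sym.Card
import Mathlib.Data.Finsupp.Multiset
import Mathlib.LinearAlgebra.Dimension.Finite

/-!
# Schur–Weyl duality

Matrices indexed by `Fin n → ι` commuting with the permutations of the factors are constant on the
orbits of pairs of indices, and a functional killing all `g ^ ⊗ n` gives a polynomial in the entries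
of `g` whose coefficients are its sums over those orbits.
-/

set_option autoImplicit false

noncomputable section

open Finset Matrix

namespace FA.SchurWeylDuality

variable {K : Type*} [Field K] {ι : Type*} [Fintype ι] [DecidableEq ι] {n : ℕ}

/-- The tensor power of a matrix. -/
def tpow (A : Matrix ι ι K) : Matrix (Fin n → ι) (Fin n → ι) K :=
  Matrix.of fun f g => ∏ i, A (f i) (g i)

omit [DecidableEq ι] in
theorem tpow_mul (A B : Matrix ι ι K) :
    (tpow (A * B) : Matrix (Fin n → ι) (Fin n → ι) K) = tpow A * tpow B := by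
  ext f g
  simp only [tpow, Matrix.of_apply, Matrix.mul_apply, Fintype.prod_sum, Finset.prod_mul_distrib]

omit [Fintype ι] in
theorem tpow_one : (tpow (1 : Matrix ι ι K) : Matrix (Fin n → ι) (Fin n → ι) K) = 1 := by
  ext f g
  simp only [tpow, Matrix.of_apply, Matrix.one_apply]
  by_cases h : f = g
  · simp [h]
  · obtain ⟨i, hi⟩ := Function.ne_iff.1 h
    rw [if_neg h]
    exact Finset.prod_eq_zero (Finset.mem_univ i) (if_neg hi)

variable (K) in
/-- The operator permuting the factors. -/
def permMat : Equiv.Perm (Fin n) →* Matrix (Fin n → ι) (Fin n → ι) K where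
  toFun σ := Matrix.of fun f g => if g = f ∘ σ then 1 else 0
  map_one' := by
    ext f g
    simp [Matrix.one_apply, eq_comm]
  map_mul' σ τ := by
    ext f g
    rw [Matrix.mul_apply, Finset.sum_eq_single (f ∘ σ) (fun j _ hj => by simp [hj]) (by simp)]
    simp only [Matrix.of_apply, Function.comp_assoc, Equiv.Perm.coe_mul, if_true, one_mul]
    exact if_congr Iff.rfl rfl rfl

theorem permMat_apply (σ : Equiv.Perm (Fin n)) (f g : Fin n → ι) :
    permMat K σ f g = if g = f ∘ σ then 1 else 0 := rfl

theorem permMat_mul_apply (σ : Equiv.Perm (Fin n)) (M : Matrix (Fin n → ι) (Fin n → ι) K)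
    (f g : Fin n → ι) :
    (permMat K σ * M : Matrix (Fin n → ι) (Fin n → ι) K) f g = M (f ∘ σ) g := by
  simp [Matrix.mul_apply, permMat_apply]

theorem mul_permMat_apply (σ : Equiv.Perm (Fin n)) (M : Matrix (Fin n → ι) (Fin n → ι) K)
    (f g : Fin n → ι) :
    (M * permMat K σ : Matrix (Fin n → ι) (Fin n → ι) K) f (g ∘ σ) = M f g := by
  rw [Matrix.mul_apply, Finset.sum_eq_single g (fun h _ hne => ?_) (by simp)]
  · simp [permMat_apply]
  · rw [permMat_apply, if_neg, mul_zero]
    exact fun he => hne (σ.surjective.injective_comp_right he.symm)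

theorem commute_iff {M : Matrix (Fin n → ι) (Fin n → ι) K} :
    (∀ σ, permMat K σ * M = M * permMat K σ) ↔
      ∀ (σ : Equiv.Perm (Fin n)) f g, M (f ∘ σ) (g ∘ σ) = M f g := by
  refine ⟨fun h σ f g => ?_, fun h σ => ?_⟩
  · rw [← permMat_mul_apply σ M f (g ∘ σ), h σ, mul_permMat_apply]
  · ext f g
    have hg : g = (g ∘ σ.symm) ∘ σ := by simp [Function.comp_assoc]
    rw [permMat_mul_apply, hg, mul_permMat_apply, h]

theorem commute_tpow (σ : Equiv.Perm (Fin n)) (A : Matrix ι ι K) :
    permMat K σ * tpow A = tpow A * permMat K σ :=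
  commute_iff.2 (fun τ f g => Equiv.prod_comp τ fun i => A (f i) (g i)) σ

variable (K) in
/-- The commutant of the permutation operators. -/
def invariantMatrices (ι : Type*) [Fintype ι] [DecidableEq ι] (n : ℕ) :
    Submodule K (Matrix (Fin n → ι) (Fin n → ι) K) where
  carrier := {M | ∀ σ, permMat K σ * M = M * permMat K σ}
  add_mem' hM hN σ := by rw [mul_add, add_mul, hM σ, hN σ]
  zero_mem' σ := by rw [mul_zero, zero_mul]
  smul_mem' t M hM σ := by rw [Matrix.mul_smul, Matrix.smul_mul, hM σ]

/-- The orbit of a pair of indices, as a multiset. -/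
def orbitKey (q : (Fin n → ι) × (Fin n → ι)) : Sym (ι × ι) n :=
  ⟨(Finset.univ : Finset (Fin n)).val.map fun i => (q.1 i, q.2 i), by simp⟩

omit [Fintype ι] [DecidableEq ι] in
theorem exists_perm_of_map_eq {α : Type*} (u v : Fin n → α)
    (h : (Finset.univ : Finset (Fin n)).val.map u = (Finset.univ : Finset (Fin n)).val.map v) :
    ∃ σ : Equiv.Perm (Fin n), v = u ∘ σ := by
  classical
  have hc : ∀ c, Fintype.card {i // v i = c} = Fintype.card {i // u i = c} := fun c => by
    have := congrArg (Multiset.count c) h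
    rw [Multiset.count_map, Multiset.count_map] at this
    simp only [Fintype.card_subtype]
    simp only [Finset.card_def, Finset.filter_val, eq_comm (b := c)]
    exact this.symm
  set e := fun c => Fintype.equivOfCardEq (hc c)
  refine ⟨Equiv.ofFiberEquiv e, funext fun i => ?_⟩
  exact (Equiv.ofFiberEquiv_map e i).symm

omit [Fintype ι] [DecidableEq ι] in
theorem orbitKey_eq_iff {q r : (Fin n → ι) × (Fin n → ι)} :
    orbitKey q = orbitKey r ↔ ∃ σ : Equiv.Perm (Fin n), r.1 = q.1 ∘ σ ∧ r.2 = q.2 ∘ σ := by
  refine ⟨fun h => ?_, fun ⟨σ, h1, h2⟩ => Subtype.ext ?_⟩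
  · obtain ⟨σ, hσ⟩ := exists_perm_of_map_eq (fun i => (q.1 i, q.2 i)) (fun i => (r.1 i, r.2 i))
      (congrArg Subtype.val h)
    exact ⟨σ, funext fun i => congrArg Prod.fst (congrFun hσ i),
      funext fun i => congrArg Prod.snd (congrFun hσ i)⟩
  · show _ = (Finset.univ : Finset (Fin n)).val.map fun i => (r.1 i, r.2 i)
    have e : (Finset.univ : Finset (Fin n)).val.map σ = (Finset.univ : Finset (Fin n)).val :=
      Multiset.map_univ_val_equiv σ
    rw [show (fun i => (r.1 i, r.2 i)) = (fun i => (q.1 i, q.2 i)) ∘ σ from by rw [h1, h2]; rfl,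
      ← Multiset.map_map, e]
    rfl

omit [Fintype ι] [DecidableEq ι] in
theorem orbitKey_surjective : Function.Surjective (orbitKey (ι := ι) (n := n)) := fun s => by
  obtain ⟨l, hl⟩ := Quot.exists_rep s.1
  have hlen : l.length = n := by
    have := s.2
    rw [← hl] at this
    exact this
  refine ⟨(fun i => (l[i.1]'(hlen.symm ▸ i.2)).1, fun i => (l[i.1]'(hlen.symm ▸ i.2)).2),
    Subtype.ext ?_⟩
  subst hlen
  show _ = s.1
  rw [← hl]
  show (((List.finRange l.length).map _ : List (ι × ι)) : Multiset (ι × ι)) = _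
  exact congrArg _ (List.map_getElem_finRange l)

variable (K) in
/-- An invariant matrix is a function on the orbits. -/
def orbitMap : (Sym (ι × ι) n → K) →ₗ[K] Matrix (Fin n → ι) (Fin n → ι) K where
  toFun r := Matrix.of fun f g => r (orbitKey (f, g))
  map_add' _ _ := rfl
  map_smul' _ _ := rfl

theorem range_orbitMap : LinearMap.range (orbitMap K) = invariantMatrices K ι n := by
  refine le_antisymm ?_ fun M hM => ?_
  · rintro _ ⟨r, rfl⟩
    exact commute_iff.2 fun σ f g =>
      (congrArg r
        (orbitKey_eq_iff.2 ⟨σ, rfl, rfl⟩ : orbitKey (f, g) = orbitKey (f ∘ σ, g ∘ σ))).symm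
  · choose q hq using orbitKey_surjective (ι := ι) (n := n)
    refine ⟨fun s => M (q s).1 (q s).2, Matrix.ext fun f g => ?_⟩
    obtain ⟨σ, h1, h2⟩ := orbitKey_eq_iff.1 (hq (orbitKey (f, g)))
    show M (q (orbitKey (f, g))).1 (q (orbitKey (f, g))).2 = M f g
    rw [← commute_iff.1 hM σ (q (orbitKey (f, g))).1 (q (orbitKey (f, g))).2]
    exact congrArg₂ _ h1.symm h2.symm

/-- **The dimension of the commutant.** -/
theorem finrank_invariantMatrices :
    Module.finrank K (invariantMatrices K ι n) =
      Nat.multichoose (Fintype.card ι * Fintype.card ι) n := by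
  classical
  rw [← range_orbitMap, LinearMap.finrank_range_of_inj fun r r' h => funext fun s => ?_,
    Module.finrank_pi, Sym.card_sym_eq_multichoose, Fintype.card_prod]
  obtain ⟨⟨f, g⟩, rfl⟩ := orbitKey_surjective s
  exact congrFun₂ h f g

/-- **The span of the tensor powers of the invertible matrices.** -/
theorem span_tpow_eq [Infinite K] :
    Submodule.span K (Set.range fun g : GL ι K => tpow (g : Matrix ι ι K)) =
      invariantMatrices K ι n := by
  classical
  refine le_antisymm (Submodule.span_le.2 ?_) fun M hM => ?_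
  · rintro _ ⟨g, rfl⟩ σ
    exact commute_tpow σ _
  by_contra hM'
  obtain ⟨φ, hφM, hφ⟩ := Submodule.exists_dual_map_eq_bot_of_notMem hM' inferInstance
  set c : (Fin n → ι) × (Fin n → ι) → K := fun q => φ (Matrix.single q.1 q.2 1)
  have hφc : ∀ N, φ N = ∑ q : (Fin n → ι) × (Fin n → ι), N q.1 q.2 * c q := fun N => by
    conv_lhs => rw [Matrix.matrix_eq_sum_single N]
    simp only [map_sum, Fintype.sum_prod_type]
    refine Finset.sum_congr rfl fun f _ => Finset.sum_congr rfl fun g _ => ?_
    rw [show Matrix.single f g (N f g) = N f g • Matrix.single f g 1 by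
      rw [Matrix.smul_single, smul_eq_mul, mul_one], map_smul, smul_eq_mul]
  set P : MvPolynomial (ι × ι) K :=
    ∑ q, MvPolynomial.monomial (Multiset.toFinsupp (orbitKey q : Multiset (ι × ι))) (c q)
  have hev : ∀ A : Matrix ι ι K, MvPolynomial.eval (fun x : ι × ι => A x.1 x.2) P =
      φ (tpow A) := fun A => by
    rw [hφc, map_sum]
    refine Finset.sum_congr rfl fun q _ => ?_
    rw [MvPolynomial.eval_monomial, Finsupp.prod, mul_comm]
    refine congrArg (· * c q) ?_
    rw [Multiset.toFinsupp_support]
    simp only [Multiset.toFinsupp_apply]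
    rw [← Finset.prod_multiset_map_count]
    show ((((Finset.univ : Finset (Fin n)).val.map _).map _)).prod = _
    rw [Multiset.map_map]
    rfl
  have hP : P = 0 := by
    have h : P * (Matrix.mvPolynomialX ι ι K).det = 0 := MvPolynomial.funext fun x => by
      set A : Matrix ι ι K := Matrix.of fun i j => x (i, j)
      rw [map_mul, map_zero, RingHom.map_det, RingHom.mapMatrix_apply]
      by_cases hA : IsUnit A.det
      · have h0 : φ (tpow A) = 0 := (Submodule.mem_bot K).1 (hφ ▸ Submodule.mem_map_of_mem
          (Submodule.subset_span ⟨(Matrix.isUnit_iff_isUnit_det A).2 hA |>.unit, rfl⟩))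
        exact mul_eq_zero_of_left ((hev A).trans h0) _
      · refine mul_eq_zero_of_right _ ?_
        rw [isUnit_iff_ne_zero, not_not] at hA
        convert hA using 2
        ext i j
        simp [A, Matrix.mvPolynomialX]
    exact (mul_eq_zero.1 h).resolve_right (Matrix.det_mvPolynomialX_ne_zero ι K)
  rw [← range_orbitMap] at hM
  obtain ⟨r, rfl⟩ := hM
  refine hφM ?_
  rw [hφc]
  rw [← Finset.sum_fiberwise _ (fun q => orbitKey q)]
  refine Finset.sum_eq_zero fun s _ => ?_
  have hs : ∑ q ∈ Finset.univ.filter (fun q => orbitKey q = s), c q = 0 := by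
    have := congrArg (MvPolynomial.coeff (Multiset.toFinsupp (s : Multiset (ι × ι)))) hP
    rw [MvPolynomial.coeff_sum, MvPolynomial.coeff_zero] at this
    simp only [MvPolynomial.coeff_monomial, Multiset.toFinsupp.injective.eq_iff,
      Sym.coe_inj, ← Finset.sum_filter] at this
    exact this
  rw [← mul_zero (r s), ← hs, Finset.mul_sum]
  refine Finset.sum_congr rfl fun q hq => ?_
  show r (orbitKey q) * c q = r s * c q
  rw [(Finset.mem_filter.1 hq).2]

/-- **Schur–Weyl duality.** -/
theorem mem_span_permMat_iff [Infinite K] (hn : (n.factorial : K) ≠ 0)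
    {M : Matrix (Fin n → ι) (Fin n → ι) K} :
    M ∈ Submodule.span K (Set.range (permMat K : Equiv.Perm (Fin n) → _)) ↔
      ∀ g : GL ι K, M * tpow (g : Matrix ι ι K) = tpow (g : Matrix ι ι K) * M := by
  refine ⟨fun hM g => ?_, fun hM => mem_span_of_double_commute _ (by
    rwa [Nat.card_eq_fintype_card, Fintype.card_perm, Fintype.card_fin]) fun N hN => ?_⟩
  · induction hM using Submodule.span_induction with
    | mem b hb =>
      obtain ⟨σ, rfl⟩ := hb
      exact commute_tpow σ _
    | zero => rw [zero_mul, mul_zero]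
    | add b d _ _ hb hd => rw [add_mul, mul_add, hb, hd]
    | smul t b _ hb => rw [Matrix.smul_mul, Matrix.mul_smul, hb]
  · have hN' : N ∈ Submodule.span K (Set.range fun g : GL ι K => tpow (g : Matrix ι ι K)) := by
      rw [span_tpow_eq]
      exact fun σ => (hN σ).symm
    clear hN
    induction hN' using Submodule.span_induction with
    | mem b hb =>
      obtain ⟨g, rfl⟩ := hb
      exact hM g
    | zero => rw [zero_mul, mul_zero]
    | add b d _ _ hb hd => rw [add_mul, mul_add, hb, hd]
    | smul t b _ hb => rw [Matrix.smul_mul, Matrix.mul_smul, hb]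

/-- **The permutations are independent** when there are enough indices. -/
theorem linearIndependent_permMat (hn : n ≤ Fintype.card ι) :
    LinearIndependent K fun σ : Equiv.Perm (Fin n) =>
      (permMat K σ : Matrix (Fin n → ι) (Fin n → ι) K) := by
  obtain ⟨e⟩ := Function.Embedding.nonempty_of_card_le
    (show Fintype.card (Fin n) ≤ Fintype.card ι by rwa [Fintype.card_fin])
  refine Fintype.linearIndependent_iff.2 fun t ht τ => ?_
  have h := congrFun₂ ht (⇑e) (⇑e ∘ τ)
  rw [Matrix.sum_apply, Matrix.zero_apply, Finset.sum_eq_single τ (fun σ _ hσ => ?_) (by simp)] at h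
  · simpa [permMat_apply] using h
  · rw [Matrix.smul_apply, permMat_apply, if_neg, smul_zero]
    exact fun he => hσ (Equiv.ext fun i => (e.injective (congrFun he i)).symm)

theorem finrank_span_permMat (hn : n ≤ Fintype.card ι) :
    Module.finrank K (Submodule.span K (Set.range fun σ : Equiv.Perm (Fin n) =>
      (permMat K σ : Matrix (Fin n → ι) (Fin n → ι) K))) = n.factorial := by
  rw [finrank_span_eq_card (linearIndependent_permMat hn), Fintype.card_perm, Fintype.card_fin]

end FA.SchurWeylDuality

end
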