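import Mathlib.LinearAlgebra.Matrix.ToLin
import Mathlib.LinearAlgebra.Basis.VectorSpace
import Mathlib.Algebra.BigOperators.Field
import Mathlib.SetTheory.Cardinal.Finite

/-!
# The double commutant of a finite matrix group

If the order of `G` is invertible, the span of a representation has an equivariant projection, and
the blocks of that projection lie in the commutant; so the span is its own double commutant.
-/

set_option autoImplicit false

noncomputable section

open Finset Matrix

namespace FA.SchurWeylDuality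

variable {K : Type*} [Field K] {G : Type*} [Group G] [Finite G] {m : Type*} [Fintype m]
  [DecidableEq m]

/-- **The double commutant theorem.** -/
theorem mem_span_of_double_commute (ρ : G →* Matrix m m K) (hG : (Nat.card G : K) ≠ 0)
    {x : Matrix m m K} (hx : ∀ N, (∀ g, N * ρ g = ρ g * N) → x * N = N * x) :
    x ∈ Submodule.span K (Set.range ρ) := by
  classical
  have := Fintype.ofFinite G
  set B := Submodule.span K (Set.range ρ)
  have hB : ∀ (g : G), ∀ b ∈ B, ρ g * b ∈ B := fun g b hb => by
    induction hb using Submodule.span_induction with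
    | mem b hb =>
      obtain ⟨h, rfl⟩ := hb
      exact Submodule.subset_span ⟨g * h, map_mul ρ g h⟩
    | zero => rw [mul_zero]; exact zero_mem _
    | add b c _ _ hb hc => rw [mul_add]; exact add_mem hb hc
    | smul t b _ hb => rw [Matrix.mul_smul]; exact B.smul_mem t hb
  obtain ⟨π₀, hπ₀⟩ := LinearMap.exists_extend (LinearMap.id : B →ₗ[K] B)
  set π : Matrix m m K → Matrix m m K := fun Y =>
    (Nat.card G : K)⁻¹ • ∑ g, ρ g⁻¹ * (π₀ (ρ g * Y) : Matrix m m K)
  have hπB : ∀ Y, π Y ∈ B := fun Y =>
    B.smul_mem _ (sum_mem fun g _ => hB _ _ (π₀ _).2)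
  have hπid : ∀ b ∈ B, π b = b := fun b hb => by
    have h : ∀ g, ρ g⁻¹ * (π₀ (ρ g * b) : Matrix m m K) = b := fun g => by
      rw [show π₀ (ρ g * b) = ⟨ρ g * b, hB g b hb⟩ from LinearMap.congr_fun hπ₀ ⟨_, hB g b hb⟩,
        ← mul_assoc, ← map_mul, inv_mul_cancel, map_one, one_mul]
    simp only [π, h, Finset.sum_const, Finset.card_univ, ← Nat.card_eq_fintype_card]
    rw [← Nat.cast_smul_eq_nsmul K, smul_smul, inv_mul_cancel₀ hG, one_smul]
  have hπeq : ∀ h Y, π (ρ h * Y) = ρ h * π Y := fun h Y => by
    simp only [π]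
    rw [Matrix.mul_smul, Finset.mul_sum,
      ← Equiv.sum_comp (Equiv.mulRight h) fun g => ρ h * (ρ g⁻¹ * (π₀ (ρ g * Y) : Matrix m m K))]
    refine congrArg _ (Finset.sum_congr rfl fun g _ => ?_)
    show ρ g⁻¹ * (π₀ (ρ g * (ρ h * Y)) : Matrix m m K) =
      ρ h * (ρ (g * h)⁻¹ * (π₀ (ρ (g * h) * Y) : Matrix m m K))
    rw [← mul_assoc (ρ g), ← map_mul, ← mul_assoc (ρ h), ← map_mul, mul_inv_rev,
      mul_inv_cancel_left]
  set N : m → m → Matrix m m K := fun j l => Matrix.of fun a b => π (Matrix.single b l 1) a j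
  have hexp : ∀ Y a j, π Y a j = ∑ l, (N j l * Y) a l := fun Y a j => by
    let πl : Matrix m m K →ₗ[K] Matrix m m K :=
      (Nat.card G : K)⁻¹ • ∑ g, (LinearMap.mulLeft K (ρ g⁻¹)).comp
        (B.subtype.comp (π₀.comp (LinearMap.mulLeft K (ρ g))))
    have hl : ∀ Z, π Z = πl Z := fun Z => by
      simp [π, πl, LinearMap.sum_apply]
    simp only [Matrix.mul_apply, N, Matrix.of_apply]
    rw [Finset.sum_comm]
    conv_lhs => rw [Matrix.matrix_eq_sum_single Y, hl]
    simp only [map_sum, Matrix.sum_apply]
    refine Finset.sum_congr rfl fun b _ => Finset.sum_congr rfl fun l _ => ?_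
    rw [hl, show Matrix.single b l (Y b l) = Y b l • Matrix.single b l 1 by
      rw [Matrix.smul_single, smul_eq_mul, mul_one], map_smul, Matrix.smul_apply, smul_eq_mul,
      mul_comm]
  have hN : ∀ j l g, N j l * ρ g = ρ g * N j l := fun j l g => by
    ext a b
    have h : π (ρ g * Matrix.single b l 1) a j = (ρ g * π (Matrix.single b l 1)) a j :=
      congrFun₂ (hπeq g _) a j
    rw [hexp, Finset.sum_eq_single l (fun l' _ hl' => ?_) (by simp), ← mul_assoc,
      Matrix.mul_single_apply_same, mul_one] at h
    · rw [h]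
      rfl
    · rw [← mul_assoc, Matrix.mul_single_apply_of_ne]
      exact hl'
  have h1 : (1 : Matrix m m K) ∈ B := Submodule.subset_span ⟨1, map_one ρ⟩
  have key : π x = x := by
    ext a j
    calc π x a j = ∑ l, (x * N j l) a l := by
          rw [hexp]
          exact Finset.sum_congr rfl fun l _ => by rw [hx _ (hN j l)]
      _ = (x * π 1) a j := by
          rw [Matrix.mul_apply (M := x) (N := π 1)]
          simp only [hexp 1, mul_one, Finset.mul_sum]
          simp only [Matrix.mul_apply]
          exact Finset.sum_comm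
      _ = x a j := by rw [hπid 1 h1, mul_one]
  exact key ▸ hπB x

end FA.SchurWeylDuality

end
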